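import Mathlib
import Fermat.Agent.LT.T2.H291.OpsSpecT
import Fermat.Agent.LT.T2.H314.CommCore

/-!
# Row LT, tower T2, sub-leaf T2.27.17 `SubCommMeanHeckeT291` (helper904, registry row 1399)

OFF-MAIN.  Sub-spec: `LT/T2/H291/OpsSpecT.lean` of helper291 (byte-identical copy, sha256
c8359c85, with its copies of `LT/H556/A0.lean`, `LT/T1/Spec.lean`, `LT/T2/Spec.lean` v3,
`LT/T2/SpecTau.lean`).  Tools: `LT/T2/H314/CommCore.lean` of helper314 (byte-identical copy,
sha256 faaf37d0; Mathlib + A0 only).

`subCommMeanHeckeT904 K : SubCommMeanHeckeT291 K` VERBATIM: the sphere means and the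
`τ`-twisted circle means commute with the Hecke sums on the cusp functions of the class.  Used:
the continuity of the cusp function, `IsLocalAtFin v h` for the elements of the coset system, and
for the twisted circle mean the continuity of `τ` on the rotations (`IsKType.cont`) together with
`‖τ k‖ = 1` (`IsKType.norm_one`).  The elements at an infinite place commute with the elements at
a finite place (`commute_inf_fin314`), and the integral of a finite sum of continuous functions
is the sum of the integrals.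
-/

set_option autoImplicit false

open IsDedekindDomain NumberField MeasureTheory
open Fermat.Agent.LT.H556.A0
open Fermat.Agent.LT.T2

noncomputable section

namespace Fermat.Agent.LT.T2.H904

variable {K : Type} [Field K] [NumberField K]

/-! ## 1. The rotations are in the compact group -/

theorem rot_unitary904 (c s : ℝ) (h : c ^ 2 + s ^ 2 = 1) :
    (!![(c : ℂ), -(s : ℂ); (s : ℂ), (c : ℂ)] : Matrix (Fin 2) (Fin 2) ℂ)
      * (!![(c : ℂ), -(s : ℂ); (s : ℂ), (c : ℂ)] : Matrix (Fin 2) (Fin 2) ℂ).conjTranspose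
      = 1 := by
  have hcs : (c : ℂ) * (c : ℂ) + (s : ℂ) * (s : ℂ) = 1 := by
    have h2 : ((c ^ 2 + s ^ 2 : ℝ) : ℂ) = 1 := by
      rw [h]; simp
    push_cast at h2
    rw [← h2]; ring
  ext i j
  fin_cases i <;> fin_cases j
  · simp [Matrix.mul_apply, Fin.sum_univ_two, Matrix.conjTranspose_apply, Complex.conj_ofReal]
    linear_combination hcs
  · simp [Matrix.mul_apply, Fin.sum_univ_two, Matrix.conjTranspose_apply, Complex.conj_ofReal]
    ring
  · simp [Matrix.mul_apply, Fin.sum_univ_two, Matrix.conjTranspose_apply, Complex.conj_ofReal]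
    ring
  · simp [Matrix.mul_apply, Fin.sum_univ_two, Matrix.conjTranspose_apply, Complex.conj_ofReal]
    linear_combination hcs

theorem rot_det904 (c s : ℝ) (h : c ^ 2 + s ^ 2 = 1) :
    (!![(c : ℂ), -(s : ℂ); (s : ℂ), (c : ℂ)] : Matrix (Fin 2) (Fin 2) ℂ).det = 1 := by
  have hcs : (c : ℂ) * (c : ℂ) + (s : ℂ) * (s : ℂ) = 1 := by
    have h2 : ((c ^ 2 + s ^ 2 : ℝ) : ℂ) = 1 := by
      rw [h]; simp
    push_cast at h2
    rw [← h2]; ring
  rw [Matrix.det_fin_two]
  simp
  linear_combination hcs

theorem rotY_mul_conjTranspose904 (θ : ℝ) : rotY θ * (rotY θ).conjTranspose = 1 :=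
  rot_unitary904 _ _ (Real.cos_sq_add_sin_sq (θ / 2))

theorem rotY_det904 (θ : ℝ) : (rotY θ).det = 1 :=
  rot_det904 _ _ (Real.cos_sq_add_sin_sq (θ / 2))

/-- A rotation at `w` is in the compact group at `w`. -/
theorem isArchCompact_of_isRotAt904 {w : InfinitePlace K} {k : ℝ → G K} (hk : IsRotAt w k)
    (θ : ℝ) : IsArchCompact w (k θ) := by
  refine ⟨(hk θ).1, ?_, fun _ => ?_⟩
  · rw [(hk θ).2]; exact rotY_mul_conjTranspose904 θ
  · rw [(hk θ).2]; exact rotY_det904 θ

/-- The parametrisation of the rotations at `w` is continuous. -/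
theorem continuous_rot904 {w : InfinitePlace K} {k : ℝ → G K} (hk : IsRotAt w k) :
    Continuous k := by
  refine H314.continuous_of_localAtInf314 w _ (fun θ => (hk θ).1) fun i j => ?_
  have : (fun θ : ℝ => infComp w (k θ) i j) = fun θ : ℝ => rotY θ i j := by
    funext θ
    rw [(hk θ).2]
  rw [this]
  exact (continuous_apply_apply i j).comp H314.continuous_rotY314

/-- A `K_∞`-type is continuous along the rotations, and so is its inverse. -/
theorem continuous_tau_inv904 {τ : G K → ℂ} (hτ : IsKType τ) {w : InfinitePlace K}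
    {k : ℝ → G K} (hk : IsRotAt w k) : Continuous fun θ : ℝ => (τ (k θ))⁻¹ := by
  have h1 : Continuous fun θ : ℝ => τ (k θ) :=
    (hτ.cont w).comp_continuous (continuous_rot904 hk) fun θ =>
      isArchCompact_of_isRotAt904 hk θ
  refine h1.inv₀ fun θ => ?_
  have := hτ.norm_one w (k θ) (isArchCompact_of_isRotAt904 hk θ)
  intro h0
  rw [h0, norm_zero] at this
  exact zero_ne_one this

/-! ## 2. The twisted circle mean of a finite sum of translates -/

/-- **Twisted circle means commute with finite sums of right translations by elements supported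
at a finite place**, on every continuous function. -/
theorem circleT_sum_comm904 {τ : G K → ℂ} (hτ : IsKType τ) {w : InfinitePlace K} {t : ℝ}
    {k : ℝ → G K} {a : G K} (hk : IsRotAt w k) (ha : IsTorusAt w t a)
    {v : HeightOneSpectrum (𝓞 K)} (H : Finset (G K)) (hH : ∀ h ∈ H, IsLocalAtFin v h)
    {φ : G K → ℂ} (hφ : Continuous φ) (g : G K) :
    (∫ θ in (0 : ℝ)..(2 * Real.pi), (τ (k θ))⁻¹ * ∑ h ∈ H, φ (g * k θ * a * h))
      = ∑ h ∈ H, ∫ θ in (0 : ℝ)..(2 * Real.pi), (τ (k θ))⁻¹ * φ (g * h * k θ * a) := by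
  have hkc := continuous_rot904 hk
  have hτc := continuous_tau_inv904 hτ hk
  have e1 : ∀ θ : ℝ, (τ (k θ))⁻¹ * ∑ h ∈ H, φ (g * k θ * a * h)
      = ∑ h ∈ H, (τ (k θ))⁻¹ * φ (g * h * k θ * a) := by
    intro θ
    rw [Finset.mul_sum]
    refine Finset.sum_congr rfl fun h hh => ?_
    have e : g * k θ * a * h = g * h * k θ * a := by
      rw [mul_assoc (g * k θ), H314.commute_inf_fin314 ha.1 (hH h hh), ← mul_assoc,
        mul_assoc g, H314.commute_inf_fin314 (hk θ).1 (hH h hh), ← mul_assoc]
    rw [e]
  simp only [e1]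
  refine intervalIntegral.integral_finsetSum fun h _ => ?_
  have hc : Continuous fun θ : ℝ => (τ (k θ))⁻¹ * φ (g * h * k θ * a) :=
    hτc.mul (hφ.comp ((continuous_const.mul hkc).mul continuous_const))
  exact hc.intervalIntegrable _ _

/-- A twisted circle mean commutes with a sum of right translations by elements supported at a
finite place, on every continuous function. -/
theorem commCircleTHecke904 {τ : G K → ℂ} (hτ : IsKType τ) {w : InfinitePlace K} {t : ℝ}
    {k : ℝ → G K} {a : G K} (hk : IsRotAt w k) (ha : IsTorusAt w t a)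
    {v : HeightOneSpectrum (𝓞 K)} (H : Finset (G K)) (hH : ∀ h ∈ H, IsLocalAtFin v h)
    {φ : G K → ℂ} (hφ : Continuous φ) :
    circleMeanT τ k a (heckeSum H φ) = heckeSum H (circleMeanT τ k a φ) := by
  funext g
  exact circleT_sum_comm904 hτ hk ha H hH hφ g

/-- A sphere mean commutes with a sum of right translations by elements supported at a finite
place, on every continuous function. -/
theorem commSphereHecke904 {w : InfinitePlace K} {d : ℝ} {Y : ℝ → ℝ → G K}
    (hY : IsSphereAt w d Y) {v : HeightOneSpectrum (𝓞 K)} (H : Finset (G K))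
    (hH : ∀ h ∈ H, IsLocalAtFin v h) {φ : G K → ℂ} (hφ : Continuous φ) :
    sphereMean Y (heckeSum H φ) = heckeSum H (sphereMean Y φ) := by
  funext g
  exact H314.sphere_sum_comm314 hY H hH hφ g

/-! ## 3. The sub-leaf -/

/-- **T2.27.17** `SubCommMeanHeckeT291`, VERBATIM. -/
theorem subCommMeanHeckeT904 (K : Type) [Field K] [NumberField K] :
    H291.SubCommMeanHeckeT291 K := by
  intro 𝔫 τ c R v _ H hH
  have hloc : ∀ h ∈ H, IsLocalAtFin v h := fun h hh => (hH.2.1 h hh).1
  refine ⟨?_, ?_⟩
  · intro w _ d _ Y hY φ hφ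
    exact commSphereHecke904 hY H hloc hφ.aut.cont
  · intro w _ t _ k a hk ha φ hφ
    exact commCircleTHecke904 c.kt hk ha H hloc hφ.aut.cont

end Fermat.Agent.LT.T2.H904

end
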